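/-
P-ES1 / block ES1-C, FORMS side (helper32), part 2, on top of helper6's
`Fermat.Agent.H6.ES1C.Hecke1` (`heckeT1`, `diamondLin`) and helper7's `NiceFn` calculus:

* `primeUnit hp hpM`      : the class of a prime `p ∤ M` in `(ZMod M)ˣ`;
* `coe_heckeT1_eq`        : `T_p f = U_p f + (⟨p⟩ f) ∣ diag(p, 1)`;
* `qCoeff_heckeT1`        : `a_n(T_p f) = a_{np}(f) + [p ∣ n] p^(k-1) a_{n/p}(⟨p⟩ f)`;
* `diamondLin_one/mul/comm` : the diamond operators form a commutative group action;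
* `hasNebentypus_iff`     : `f` has nebentypus `ψ` iff `⟨d⟩ f = ψ(d) f` for all `d`;
* `heckeT1_hasNebentypus` : `T_p` preserves the nebentypus;
* `qCoeff_heckeT1_neben`  : `a_n(T_p f) = a_{np}(f) + [p ∣ n] p^(k-1) ψ(p) a_{n/p}(f)`;
* `heckeT1_comm`          : `T_p T_q = T_q T_p`;
* `nebSub`                : the `ψ`-part of `S_k(Γ₁(M))`, stable under `T_p` and `⟨d⟩`.
-/
import Mathlib
import Fermat.Agent.H6.ES1C.Hecke1

set_option autoImplicit false

noncomputable section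

namespace Fermat.Agent.H32.Hecke1Q

open Matrix.SpecialLinearGroup UpperHalfPlane CongruenceSubgroup ModularForm
open scoped MatrixGroups ModularForm Manifold OnePoint
open Fermat.Agent.H7.DS Fermat.Agent.H6.ES1C

variable {M : ℕ} [NeZero M] {k : ℤ}

/-! ### equality of cusp forms from `q`-coefficients -/

theorem cuspForm_ext_qCoeff {f g : CuspForm (Gamma1 M) k}
    (h : ∀ n : ℕ, ModularFormClass.qCoeff ⇑f n = ModularFormClass.qCoeff ⇑g n) : f = g :=
  DFunLike.coe_injective ((niceFn_cuspForm f).eq_of_qCoeff (niceFn_cuspForm g) h)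

theorem qCoeff_smul_cuspForm (c : ℂ) (f : CuspForm (Gamma1 M) k) (n : ℕ) :
    ModularFormClass.qCoeff ⇑(c • f) n = c * ModularFormClass.qCoeff ⇑f n := by
  rw [FunLike.coe_smul]
  exact (niceFn_cuspForm f).qCoeff_smul c n

theorem qCoeff_add_cuspForm (f g : CuspForm (Gamma1 M) k) (n : ℕ) :
    ModularFormClass.qCoeff ⇑(f + g) n
      = ModularFormClass.qCoeff ⇑f n + ModularFormClass.qCoeff ⇑g n := by
  rw [FunLike.coe_add]
  exact (niceFn_cuspForm f).qCoeff_add (niceFn_cuspForm g) n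

/-! ### the class of a prime in `(ZMod M)ˣ` -/

/-- The class of a prime `p ∤ M` in `(ZMod M)ˣ`. -/
def primeUnit {p : ℕ} (hp : p.Prime) (hpM : ¬ p ∣ M) : (ZMod M)ˣ :=
  ZMod.unitOfCoprime p ((Nat.Prime.coprime_iff_not_dvd hp).mpr hpM)

omit [NeZero M] in
@[simp] theorem coe_primeUnit {p : ℕ} (hp : p.Prime) (hpM : ¬ p ∣ M) :
    ((primeUnit hp hpM : (ZMod M)ˣ) : ZMod M) = (p : ZMod M) :=
  ZMod.coe_unitOfCoprime _ _

/-! ### the diamond operators -/

theorem coe_diamondLin_deltaRep (d : (ZMod M)ˣ) (f : CuspForm (Gamma1 M) k) :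
    (⇑(diamondLin M k d f) : ℍ → ℂ) = (⇑f : ℍ → ℂ) ∣[k] mapGL ℝ (deltaRep M (d : ZMod M).val) :=
  coe_diamondLin d f (deltaRep_mem M _) (lr_deltaRep_unit d)

theorem diamondLin_one (f : CuspForm (Gamma1 M) k) : diamondLin M k 1 f = f := by
  apply DFunLike.coe_injective
  rw [coe_diamondLin (1 : (ZMod M)ˣ) f (one_mem (Gamma0 M)) (by rw [lr_one]; simp)]
  simp

/-- `⟨d e⟩ f = ⟨e⟩ ⟨d⟩ f`. -/
theorem diamondLin_mul' (d e : (ZMod M)ˣ) (f : CuspForm (Gamma1 M) k) :
    diamondLin M k (d * e) f = diamondLin M k e (diamondLin M k d f) := by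
  apply DFunLike.coe_injective
  have hd := deltaRep_mem M (d : ZMod M).val
  have he := deltaRep_mem M (e : ZMod M).val
  rw [coe_diamondLin (d * e) f (mul_mem hd he)
      (by rw [lr_mul hd, lr_deltaRep_unit, lr_deltaRep_unit]; simp),
    coe_diamondLin_deltaRep e, coe_diamondLin_deltaRep d, map_mul, SlashAction.slash_mul]

theorem diamondLin_comm (d e : (ZMod M)ˣ) (f : CuspForm (Gamma1 M) k) :
    diamondLin M k d (diamondLin M k e f) = diamondLin M k e (diamondLin M k d f) := by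
  rw [← diamondLin_mul', ← diamondLin_mul', mul_comm]

/-- `⟨d e⟩ f = ⟨d⟩ ⟨e⟩ f`. -/
theorem diamondLin_mul (d e : (ZMod M)ˣ) (f : CuspForm (Gamma1 M) k) :
    diamondLin M k (d * e) f = diamondLin M k d (diamondLin M k e f) := by
  rw [diamondLin_mul', diamondLin_comm]

theorem diamondLin_inv_apply (d : (ZMod M)ˣ) (f : CuspForm (Gamma1 M) k) :
    diamondLin M k d⁻¹ (diamondLin M k d f) = f := by
  rw [← diamondLin_mul, inv_mul_cancel, diamondLin_one]

theorem diamondLin_apply_inv (d : (ZMod M)ˣ) (f : CuspForm (Gamma1 M) k) :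
    diamondLin M k d (diamondLin M k d⁻¹ f) = f := by
  rw [← diamondLin_mul, mul_inv_cancel, diamondLin_one]

/-! ### nebentypus -/

/-- `f` has nebentypus `ψ` iff `⟨d⟩ f = ψ(d) f` for every `d`. -/
theorem hasNebentypus_iff (ψ : DirichletCharacter ℂ M) (f : CuspForm (Gamma1 M) k) :
    Fermat.Agent.H20.DS.HasNebentypus k ψ ⇑f ↔
      ∀ d : (ZMod M)ˣ, diamondLin M k d f = ψ (d : ZMod M) • f := by
  constructor
  · intro h d
    apply DFunLike.coe_injective
    rw [coe_diamondLin_deltaRep, FunLike.coe_smul]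
    have h1 := h (deltaRep M (d : ZMod M).val) (deltaRep_mem M _)
    rw [SL_slash] at h1
    have h2 : ((((deltaRep M (d : ZMod M).val : SL(2, ℤ)) : Matrix (Fin 2) (Fin 2) ℤ) 1 1 : ℤ)
        : ZMod M) = (d : ZMod M) := lr_deltaRep_unit d
    rw [h2] at h1
    exact h1
  · intro h γ hγ
    have hu : IsUnit (lr M γ) := isUnit_lr hγ
    have h1 := h hu.unit
    have h2 := coe_diamondLin hu.unit f hγ hu.unit_spec.symm
    rw [h1, FunLike.coe_smul, hu.unit_spec] at h2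
    rw [SL_slash]
    exact h2.symm

/-! ### the `q`-expansion of `T_p f` -/

/-- `T_p f = U_p f + (⟨p⟩ f) ∣ diag(p, 1)`. -/
theorem coe_heckeT1_eq {p : ℕ} (hp : p.Prime) (hpM : ¬ p ∣ M) (f : CuspForm (Gamma1 M) k) :
    (⇑(heckeT1 M k p f) : ℍ → ℂ)
      = heckeU k p ⇑f
        + (⇑(diamondLin M k (primeUnit hp hpM) f) : ℍ → ℂ) ∣[k] heckeDiagMatrix p := by
  rw [coe_heckeT1_dsT hp hpM, dsT_def,
    coe_diamondLin (primeUnit hp hpM) f (deltaRep_mem M p)
      ((lr_deltaRep_prime hp hpM).trans (coe_primeUnit hp hpM).symm)]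

/-- **The `q`-expansion of `T_p f`**:
`a_n(T_p f) = a_{np}(f) + [p ∣ n] p^(k-1) a_{n/p}(⟨p⟩ f)`. -/
theorem qCoeff_heckeT1 {p : ℕ} (hp : p.Prime) (hpM : ¬ p ∣ M) (f : CuspForm (Gamma1 M) k)
    (n : ℕ) :
    ModularFormClass.qCoeff ⇑(heckeT1 M k p f) n
      = ModularFormClass.qCoeff ⇑f (n * p)
        + if p ∣ n then (p : ℂ) ^ (k - 1)
            * ModularFormClass.qCoeff ⇑(diamondLin M k (primeUnit hp hpM) f) (n / p) else 0 := by
  have hf := niceFn_cuspForm f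
  have hd := niceFn_cuspForm (diamondLin M k (primeUnit hp hpM) f)
  rw [coe_heckeT1_eq hp hpM, NiceFn.qCoeff_add (hf.heckeU k p) (hd.slash_heckeDiag k p),
    hd.qCoeff_slash_heckeDiag k hp.ne_zero,
    UpperHalfPlane.qCoeff_heckeU hf.per hf.hol hf.bdd k hp.ne_zero n, coeffHeckeU_apply]

/-- `T_p` preserves the nebentypus. -/
theorem heckeT1_hasNebentypus (ψ : DirichletCharacter ℂ M) (p : ℕ)
    {f : CuspForm (Gamma1 M) k} (hf : Fermat.Agent.H20.DS.HasNebentypus k ψ ⇑f) :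
    Fermat.Agent.H20.DS.HasNebentypus k ψ ⇑(heckeT1 M k p f) := by
  rw [hasNebentypus_iff] at hf ⊢
  intro d
  rw [← heckeT1_diamondLin, hf d, map_smul]

/-- `⟨e⟩` preserves the nebentypus. -/
theorem diamondLin_hasNebentypus (ψ : DirichletCharacter ℂ M) (e : (ZMod M)ˣ)
    {f : CuspForm (Gamma1 M) k} (hf : Fermat.Agent.H20.DS.HasNebentypus k ψ ⇑f) :
    Fermat.Agent.H20.DS.HasNebentypus k ψ ⇑(diamondLin M k e f) := by
  rw [hasNebentypus_iff] at hf ⊢
  intro d
  rw [diamondLin_comm, hf d, map_smul]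

/-- **The `q`-expansion of `T_p f`** for `f` with nebentypus `ψ`:
`a_n(T_p f) = a_{np}(f) + [p ∣ n] p^(k-1) ψ(p) a_{n/p}(f)`. -/
theorem qCoeff_heckeT1_neben (ψ : DirichletCharacter ℂ M) {p : ℕ} (hp : p.Prime)
    (hpM : ¬ p ∣ M) {f : CuspForm (Gamma1 M) k}
    (hf : Fermat.Agent.H20.DS.HasNebentypus k ψ ⇑f) (n : ℕ) :
    ModularFormClass.qCoeff ⇑(heckeT1 M k p f) n
      = ModularFormClass.qCoeff ⇑f (n * p)
        + if p ∣ n then (p : ℂ) ^ (k - 1) * ψ (p : ZMod M)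
            * ModularFormClass.qCoeff ⇑f (n / p) else 0 := by
  rw [qCoeff_heckeT1 hp hpM, (hasNebentypus_iff ψ f).mp hf (primeUnit hp hpM),
    qCoeff_smul_cuspForm, coe_primeUnit, mul_assoc]

/-- The weight two form of the `q`-expansion formula, in the shape
`a_n(T_p f) = a_{pn}(f) + p ψ(p) [p ∣ n] a_{n/p}(f)`. -/
theorem qCoeff_heckeT1_neben_two (ψ : DirichletCharacter ℂ M) {p : ℕ} (hp : p.Prime)
    (hpM : ¬ p ∣ M) {f : CuspForm (Gamma1 M) 2}
    (hf : Fermat.Agent.H20.DS.HasNebentypus 2 ψ ⇑f) (n : ℕ) :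
    ModularFormClass.qCoeff ⇑(heckeT1 M 2 p f) n
      = ModularFormClass.qCoeff ⇑f (p * n)
        + (p : ℂ) * ψ (p : ZMod M)
            * (if p ∣ n then ModularFormClass.qCoeff ⇑f (n / p) else 0) := by
  rw [qCoeff_heckeT1_neben ψ hp hpM hf, mul_comm n p]
  split_ifs
  · norm_num
  · simp

/-! ### commutation of the `T_p` -/

theorem heckeT1_comm_aux {p q : ℕ} (hp : p.Prime) (hpM : ¬ p ∣ M) (hq : q.Prime)
    (hqM : ¬ q ∣ M) (hpq : p ≠ q) (f : CuspForm (Gamma1 M) k) :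
    heckeT1 M k p (heckeT1 M k q f) = heckeT1 M k q (heckeT1 M k p f) := by
  have hcop : Nat.Coprime p q := (Nat.coprime_primes hp hq).mpr hpq
  refine cuspForm_ext_qCoeff fun n => ?_
  rw [qCoeff_heckeT1 hp hpM, qCoeff_heckeT1 hq hqM, ← heckeT1_diamondLin,
    qCoeff_heckeT1 hq hqM, qCoeff_heckeT1 hq hqM, qCoeff_heckeT1 hp hpM,
    ← heckeT1_diamondLin, qCoeff_heckeT1 hp hpM,
    diamondLin_comm (primeUnit hq hqM) (primeUnit hp hpM)]
  have e1 : n * p * q = n * q * p := Nat.mul_right_comm n p q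
  have hqnp : q ∣ n * p ↔ q ∣ n := hcop.symm.dvd_mul_right
  have hpnq : p ∣ n * q ↔ p ∣ n := hcop.dvd_mul_right
  by_cases hpn : p ∣ n
  · by_cases hqn : q ∣ n
    · have hq' : q ∣ n / p := by
        obtain ⟨m, rfl⟩ := hpn
        rw [Nat.mul_div_cancel_left _ hp.pos]
        exact (hcop.symm.dvd_mul_left).mp hqn
      have hp' : p ∣ n / q := by
        obtain ⟨m, rfl⟩ := hqn
        rw [Nat.mul_div_cancel_left _ hq.pos]
        exact (hcop.dvd_mul_left).mp hpn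
      rw [if_pos (hqnp.mpr hqn), if_pos hpn, if_pos hq', if_pos (hpnq.mpr hpn), if_pos hqn,
        if_pos hp', e1, ← Nat.div_mul_right_comm hqn, ← Nat.div_mul_right_comm hpn,
        Nat.div_div_eq_div_mul, Nat.div_div_eq_div_mul, mul_comm q p]
      ring
    · have hq' : ¬ q ∣ n / p := fun h => hqn (h.trans (Nat.div_dvd_of_dvd hpn))
      rw [if_neg (fun h => hqn (hqnp.mp h)), if_pos hpn, if_neg hq', if_pos (hpnq.mpr hpn),
        if_neg hqn, e1, ← Nat.div_mul_right_comm hpn]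
      ring
  · by_cases hqn : q ∣ n
    · have hp' : ¬ p ∣ n / q := fun h => hpn (h.trans (Nat.div_dvd_of_dvd hqn))
      rw [if_pos (hqnp.mpr hqn), if_neg hpn, if_neg (fun h => hpn (hpnq.mp h)), if_pos hqn,
        if_neg hp', e1, ← Nat.div_mul_right_comm hqn]
      ring
    · rw [if_neg (fun h => hqn (hqnp.mp h)), if_neg hpn, if_neg (fun h => hpn (hpnq.mp h)),
        if_neg hqn, e1]

/-- **The Hecke operators commute**: `T_p T_q = T_q T_p`. -/
theorem heckeT1_comm (p q : ℕ) (f : CuspForm (Gamma1 M) k) :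
    heckeT1 M k p (heckeT1 M k q f) = heckeT1 M k q (heckeT1 M k p f) := by
  by_cases hp : p.Prime ∧ ¬ p ∣ M
  · by_cases hq : q.Prime ∧ ¬ q ∣ M
    · by_cases hpq : p = q
      · rw [hpq]
      · exact heckeT1_comm_aux hp.1 hp.2 hq.1 hq.2 hpq f
    · have h0 : heckeT1 M k q = 0 := by
        unfold heckeT1
        rw [dif_neg hq]
      rw [h0]
      simp
  · have h0 : heckeT1 M k p = 0 := by
      unfold heckeT1
      rw [dif_neg hp]
    rw [h0]
    simp

theorem heckeT1_commute (p q : ℕ) : Commute (heckeT1 M k p) (heckeT1 M k q) :=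
  LinearMap.ext fun f => heckeT1_comm p q f

theorem heckeT1_diamondLin_commute (p : ℕ) (d : (ZMod M)ˣ) :
    Commute (heckeT1 M k p) (diamondLin M k d) :=
  LinearMap.ext fun f => heckeT1_diamondLin p d f

theorem diamondLin_commute (d e : (ZMod M)ˣ) :
    Commute (diamondLin M k d) (diamondLin M k e) :=
  LinearMap.ext fun f => diamondLin_comm d e f

/-! ### the `ψ`-part -/

/-- The `ψ`-part of `S_k(Γ₁(M))`: the forms with nebentypus `ψ`. -/
def nebSub (M : ℕ) [NeZero M] (k : ℤ) (ψ : DirichletCharacter ℂ M) :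
    Submodule ℂ (CuspForm (Gamma1 M) k) where
  carrier := {f | ∀ d : (ZMod M)ˣ, diamondLin M k d f = ψ (d : ZMod M) • f}
  add_mem' := by
    intro f g hf hg d
    rw [map_add, hf d, hg d, smul_add]
  zero_mem' := by
    intro d
    rw [map_zero, smul_zero]
  smul_mem' := by
    intro c f hf d
    rw [map_smul, hf d, smul_comm]

theorem mem_nebSub {ψ : DirichletCharacter ℂ M} {f : CuspForm (Gamma1 M) k} :
    f ∈ nebSub M k ψ ↔ ∀ d : (ZMod M)ˣ, diamondLin M k d f = ψ (d : ZMod M) • f := Iff.rfl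

theorem mem_nebSub_iff_hasNebentypus {ψ : DirichletCharacter ℂ M}
    {f : CuspForm (Gamma1 M) k} :
    f ∈ nebSub M k ψ ↔ Fermat.Agent.H20.DS.HasNebentypus k ψ ⇑f :=
  (hasNebentypus_iff ψ f).symm

theorem heckeT1_mem_nebSub {ψ : DirichletCharacter ℂ M} (p : ℕ) {f : CuspForm (Gamma1 M) k}
    (hf : f ∈ nebSub M k ψ) : heckeT1 M k p f ∈ nebSub M k ψ := by
  rw [mem_nebSub_iff_hasNebentypus] at hf ⊢
  exact heckeT1_hasNebentypus ψ p hf

theorem diamondLin_mem_nebSub {ψ : DirichletCharacter ℂ M} (e : (ZMod M)ˣ)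
    {f : CuspForm (Gamma1 M) k} (hf : f ∈ nebSub M k ψ) :
    diamondLin M k e f ∈ nebSub M k ψ := by
  rw [mem_nebSub_iff_hasNebentypus] at hf ⊢
  exact diamondLin_hasNebentypus ψ e hf

end Fermat.Agent.H32.Hecke1Q

end
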