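/-
P-ES1 / block ES1-C, row 740 (ES1-C-HECKE1-Q), helper32:
`qFormula : Fermat.Agent.H6.ES1C.QFormulaStatement`, and (row 741, unconditional)
`heckeComm : Fermat.Agent.H6.ES1C.HeckeCommStatement`.
-/
import Mathlib
import Fermat.Agent.H6.ES1C.Forms
import Fermat.Agent.H32.Hecke1.QFormula

set_option autoImplicit false

noncomputable section

namespace Fermat.Agent.H32.Hecke1Q

open Matrix.SpecialLinearGroup UpperHalfPlane CongruenceSubgroup ModularForm
open scoped MatrixGroups ModularForm Manifold OnePoint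
open Fermat.Agent.H7.DS Fermat.Agent.H6.ES1C Fermat.Agent.H20.DS

/-- **ES1-C-HECKE1-Q** (row 740): the `q`-expansion of `T_p f` on the `ψ`-part of
`S₂(Γ₁(M))`. -/
theorem qFormula : Fermat.Agent.H6.ES1C.QFormulaStatement := by
  intro M _ ψ f hf p hp hpM n
  exact qCoeff_heckeT1_neben_two ψ hp hpM hf n

/-- The restricted operators `T_p` on `nebSub M ψ` commute. -/
theorem heckeTψ_comm {M : ℕ} [NeZero M] (ψ : DirichletCharacter ℂ M) (p q : ℕ) :
    heckeTψ M ψ p * heckeTψ M ψ q = heckeTψ M ψ q * heckeTψ M ψ p := by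
  refine LinearMap.ext fun f => Subtype.ext ?_
  show heckeT1 M 2 p (heckeT1 M 2 q (f : CuspForm (Gamma1 M) 2))
    = heckeT1 M 2 q (heckeT1 M 2 p (f : CuspForm (Gamma1 M) 2))
  exact heckeT1_comm p q _

/-- Any two generators of the Hecke algebra of `nebSub M ψ` commute. -/
theorem heckeGens_comm {M : ℕ} [NeZero M] (ψ : DirichletCharacter ℂ M)
    {a b : Module.End ℂ (Fermat.Agent.H6.ES1C.nebSub M ψ)}
    (ha : a ∈ heckeGens M ψ) (hb : b ∈ heckeGens M ψ) : a * b = b * a := by
  rcases ha with ⟨p, -, -, rfl⟩ | ⟨d, rfl⟩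
  · rcases hb with ⟨q, -, -, rfl⟩ | ⟨e, rfl⟩
    · exact heckeTψ_comm ψ p q
    · rw [mul_smul_comm, smul_mul_assoc, mul_one, one_mul]
  · rw [mul_smul_comm, smul_mul_assoc, mul_one, one_mul]

/-- **ES1-C-HECKE1-COMM** (row 741), unconditional: the Hecke algebra of `nebSub M ψ` is
commutative. -/
theorem heckeComm : Fermat.Agent.H6.ES1C.HeckeCommStatement := by
  intro M _ ψ a b ha hb
  have key : ∀ x ∈ heckeAlg1 M ψ, ∀ y ∈ heckeAlg1 M ψ, x * y = y * x := by
    intro x hx y hy
    exact Algebra.commute_of_mem_adjoin_of_forall_mem_commute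
      (s := heckeGens M ψ) (a := x) (b := y) hy
      (fun g hg => (Algebra.commute_of_mem_adjoin_of_forall_mem_commute
        (s := heckeGens M ψ) (a := g) (b := x) hx
        (fun g' hg' => heckeGens_comm ψ hg hg')).symm)
  exact key a ha b hb

end Fermat.Agent.H32.Hecke1Q

end
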